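import Fermat.Agent.S16.H247.WeilInd

/-!
# S16 / L-gs (helper247): the Gauss sums from `(ST)³ = -1`

In the abstract setting of `WeilInd.lean`: if `Θ` satisfies `(T)`, `(S)`, `card D = p²` and the
orthogonality relations (`IsPreWeilFamily`), if `Θ 0 ≠ 0` and `ψ 1` is a primitive `p`-th root of
unity, then all the Gauss sums `∑ h, ψ (u * Q h)`, `u ≠ 0`, are equal to `-p`
(so the family is an `IsWeilFamily`, and `Θ 0` is modular on `Γ₀(p)`).

* `u = 1`: compute `Θ 0 ∣ (ST)³ = -p⁻¹ (∑ h, ψ (Q h)) • Θ 0` and use `(ST)³ = -1`.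
* general `u`: Galois conjugation, in the form "`Φ_p` divides `∑ h, X ^ (Q h).val + p`".
-/

set_option autoImplicit false

open UpperHalfPlane ModularForm Matrix Matrix.SpecialLinearGroup CongruenceSubgroup
open scoped MatrixGroups ModularForm Manifold

namespace Fermat.Agent.S16.H247

theorem STSTST_eq_neg_one :
    ModularGroup.S * ModularGroup.T * ModularGroup.S * ModularGroup.T * ModularGroup.S *
      ModularGroup.T = (-1 : SL(2, ℤ)) := by
  decide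

theorem slash_two_neg_one (f : ℍ → ℂ) : f ∣[(2 : ℤ)] (-1 : SL(2, ℤ)) = f := by
  ext τ
  rw [ModularForm.SL_slash_apply]
  have h1 : ((-1 : SL(2, ℤ)) • τ) = τ := by
    rw [ModularGroup.SL_neg_smul, one_smul]
  have h2 : denom ((-1 : SL(2, ℤ)) : GL (Fin 2) ℝ) τ = -1 := by
    simp [denom]
  rw [h1, h2]
  norm_num

variable {p : ℕ} [Fact p.Prime] {D : Type*} [AddCommGroup D] [Fintype D] [Module (ZMod p) D]
variable {Q : QuadraticForm (ZMod p) D} {ψ : AddChar (ZMod p) ℂ} {Θ : D → ℍ → ℂ}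

namespace IsPreWeilFamily

variable (H : IsPreWeilFamily Q ψ Θ)
include H

theorem vvec_one_slash_S :
    vvec Q ψ Θ 1 ∣[(2 : ℤ)] ModularGroup.S =
      (((p : ℂ)⁻¹) ^ 2 * ∑ k, ψ (Q k)) • ∑ j, ψ (-(Q j)) • Θ j := by
  rw [H.vvec_slash_S_aux]
  have key : ∀ j : D, ∑ k, ψ (1 * Q k + QuadraticMap.polar Q k j)
      = (∑ k, ψ (Q k)) * ψ (-(Q j)) := by
    intro j
    have e1 : ∀ k : D, 1 * Q k + QuadraticMap.polar Q k j = Q (k + j) + -(Q j) := by
      intro k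
      simp only [QuadraticMap.polar]; ring
    simp_rw [e1, AddChar.map_add_eq_mul]
    rw [← Finset.sum_mul]
    congr 1
    exact Fintype.sum_equiv (Equiv.addRight j) _ _ (fun k => rfl)
  simp_rw [key]
  generalize (∑ k, ψ (Q k)) = g
  ext τ
  simp only [Pi.smul_apply, Finset.sum_apply, smul_eq_mul, Finset.mul_sum]
  refine Finset.sum_congr rfl fun j _ => ?_
  ring

theorem sum_neg_slash_T (c : ℂ) :
    (c • ∑ j, ψ (-(Q j)) • Θ j) ∣[(2 : ℤ)] ModularGroup.T = (c * -(p : ℂ)) • vvec Q ψ Θ 0 := by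
  have hp : (p : ℂ) ≠ 0 := by
    exact_mod_cast (Fact.out : p.Prime).ne_zero
  rw [slash_smul_sum]
  unfold vvec
  rw [smul_smul]
  have : c * -(p : ℂ) * -(p : ℂ)⁻¹ = c := by field_simp
  rw [this]
  congr 1
  refine Finset.sum_congr rfl fun j _ => ?_
  rw [H.slash_T, smul_smul, ← AddChar.map_add_eq_mul]
  simp

/-- `Θ 0 ∣ (ST)³ = -p⁻¹ (∑ h, ψ (Q h)) • Θ 0`. -/
theorem zero_slash_STSTST :
    Θ 0 ∣[(2 : ℤ)] (ModularGroup.S * ModularGroup.T * ModularGroup.S * ModularGroup.T *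
      ModularGroup.S * ModularGroup.T) = (-(p : ℂ)⁻¹ * ∑ k, ψ (Q k)) • Θ 0 := by
  have hp : (p : ℂ) ≠ 0 := by
    exact_mod_cast (Fact.out : p.Prime).ne_zero
  simp only [SlashAction.slash_mul]
  rw [H.zero_slash_S, H.vvec_slash_T, zero_add, H.vvec_one_slash_S, H.sum_neg_slash_T,
    ModularForm.SL_smul_slash, H.vvec_zero_slash_S, ModularForm.SL_smul_slash, H.zero_slash_T]
  congr 1
  field_simp

/-- The Gauss sum for `u = 1`. -/
theorem gauss_one (h0 : Θ 0 ≠ 0) : ∑ k, ψ (Q k) = -(p : ℂ) := by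
  have hp : (p : ℂ) ≠ 0 := by
    exact_mod_cast (Fact.out : p.Prime).ne_zero
  have h1 := H.zero_slash_STSTST
  rw [STSTST_eq_neg_one, slash_two_neg_one] at h1
  obtain ⟨τ, hτ⟩ : ∃ τ, Θ 0 τ ≠ 0 := by
    by_contra hcon
    exact h0 (funext fun τ => not_not.1 fun h => hcon ⟨τ, h⟩)
  have h2 := congrFun h1 τ
  simp only [Pi.smul_apply, smul_eq_mul] at h2
  have h3 : (-(p : ℂ)⁻¹ * ∑ k, ψ (Q k)) = 1 := by
    have : (1 - (-(p : ℂ)⁻¹ * ∑ k, ψ (Q k))) * Θ 0 τ = 0 := by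
      rw [sub_mul, one_mul, ← h2, sub_self]
    rcases mul_eq_zero.1 this with h | h
    · exact (sub_eq_zero.1 h).symm
    · exact absurd h hτ
  have h4 : ∑ k, ψ (Q k) = -(p : ℂ) * (-(p : ℂ)⁻¹ * ∑ k, ψ (Q k)) := by
    field_simp
  rw [h4, h3, mul_one]

end IsPreWeilFamily

/-! ### Galois conjugation -/

theorem addChar_eq_pow (ψ : AddChar (ZMod p) ℂ) (a : ZMod p) :
    ψ a = ψ 1 ^ a.val := by
  have : NeZero p := ⟨(Fact.out : p.Prime).ne_zero⟩
  rw [← AddChar.map_nsmul_eq_pow]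
  congr 1
  simp

omit [AddCommGroup D] [Module (ZMod p) D] in
/-- If `∑ h, ψ (f h) = -p` then `∑ h, ψ (u * f h) = -p` for all `u ≠ 0`. -/
theorem sum_addChar_mul_eq (f : D → ZMod p) (hζ : IsPrimitiveRoot (ψ 1) p)
    (h1 : ∑ h, ψ (f h) = -(p : ℂ)) {u : ZMod p} (hu : u ≠ 0) :
    ∑ h, ψ (u * f h) = -(p : ℂ) := by
  classical
  have hp : p.Prime := Fact.out
  have : NeZero p := ⟨hp.ne_zero⟩
  set P : Polynomial ℤ := ∑ h : D, Polynomial.X ^ (f h).val + Polynomial.C (p : ℤ) with hP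
  have hev : ∀ z : ℂ, Polynomial.aeval z P = ∑ h : D, z ^ (f h).val + (p : ℂ) := by
    intro z
    simp [hP, map_sum]
  have hroot : Polynomial.aeval (ψ 1) P = 0 := by
    rw [hev]
    have : ∑ h : D, ψ 1 ^ (f h).val = ∑ h, ψ (f h) :=
      Finset.sum_congr rfl fun h _ => (addChar_eq_pow ψ (f h)).symm
    rw [this, h1]; ring
  have hdvd : Polynomial.cyclotomic p ℤ ∣ P := by
    rw [Polynomial.cyclotomic_eq_minpoly hζ hp.pos]
    exact minpoly.isIntegrallyClosed_dvd (hζ.isIntegral hp.pos) hroot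
  have hu' : (u.val).Coprime p := by
    rw [Nat.coprime_comm, hp.coprime_iff_not_dvd]
    intro hdiv
    apply hu
    have := (ZMod.natCast_eq_zero_iff u.val p).2 hdiv
    rwa [ZMod.natCast_zmod_val] at this
  have hζ' : IsPrimitiveRoot (ψ 1 ^ u.val) p := hζ.pow_of_coprime _ hu'
  have hroot' : Polynomial.aeval (ψ 1 ^ u.val) P = 0 := by
    obtain ⟨R, hR⟩ := hdvd
    have hcyc : Polynomial.aeval (ψ 1 ^ u.val) (Polynomial.cyclotomic p ℤ) = 0 := by
      have := hζ'.isRoot_cyclotomic hp.pos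
      rw [Polynomial.IsRoot.def, ← Polynomial.map_cyclotomic_int, Polynomial.eval_map] at this
      rw [Polynomial.aeval_def, algebraMap_int_eq]
      exact this
    rw [hR, map_mul, hcyc, zero_mul]
  rw [hev] at hroot'
  have : ∑ h : D, (ψ 1 ^ u.val) ^ (f h).val = ∑ h, ψ (u * f h) := by
    refine Finset.sum_congr rfl fun h _ => ?_
    rw [← pow_mul, ← AddChar.map_nsmul_eq_pow]
    congr 1
    simp
  rw [this] at hroot'
  linear_combination hroot'

/-- **L-gs**: a pre-Weil family with `Θ 0 ≠ 0` and primitive `ψ` is a Weil family. -/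
theorem IsPreWeilFamily.isWeilFamily (H : IsPreWeilFamily Q ψ Θ) (h0 : Θ 0 ≠ 0)
    (hζ : IsPrimitiveRoot (ψ 1) p) : IsWeilFamily Q ψ Θ :=
  { H with gauss := fun _ hu => sum_addChar_mul_eq (fun h => Q h) hζ (H.gauss_one h0) hu }

/-- **L-gs + L-ind**: `Θ 0` is a weight `2` modular form on `Γ₀(p)`
(function-level package = membership in `Fermat.Agent.S20.MF (Gamma0 p) 2`). -/
theorem IsPreWeilFamily.mdiff_and_slash_and_bdd (H : IsPreWeilFamily Q ψ Θ) (h0 : Θ 0 ≠ 0)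
    (hζ : IsPrimitiveRoot (ψ 1) p) (hol : MDiff (Θ 0)) (hbdd : ∀ k, IsBoundedAtImInfty (Θ k)) :
    MDiff (Θ 0) ∧ (∀ γ ∈ Gamma0 p, Θ 0 ∣[(2 : ℤ)] γ = Θ 0) ∧
      ∀ γ : SL(2, ℤ), IsBoundedAtImInfty (Θ 0 ∣[(2 : ℤ)] γ) :=
  (H.isWeilFamily h0 hζ).mdiff_and_slash_and_bdd hol hbdd

end Fermat.Agent.S16.H247
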