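import Fermat.Agent.S16.H247.U4Ev

/-!
# S16 / WP U4 (helper247): the skeleton statement `U4`

Instantiation of helper373's abstract core `H373.u4_core` (`H373.LevelData` over `K = ℂ`,
`O = ℤ`) with the landed packages FR (`H377.FR`), L1 (`H196`) and the `q`-expansion API:

`U4 : p ≡ 7 mod 8 → G ∈ M₂(Γ₀(p)) → a₀(G) = s odd → 8 ∣ a_k(G) (k ≥ 1) → False`,

verbatim the statement `Skel.U4` of the row skeleton.
-/

set_option autoImplicit false

noncomputable section

namespace Fermat.Agent.S16.H247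

open UpperHalfPlane ModularForm CongruenceSubgroup MatrixGroups ModularFormClass
open EisensteinSeries
open Fermat.Agent.S16
open Fermat.Agent.S20 (MF SF)
open scoped Manifold

variable (p : ℕ) [hpp : Fact p.Prime]

/-- The level data of `Γ₀(p)` over `ℂ`, with integrality with respect to `ℤ`. -/
def levelData : H373.LevelData ℂ p hpp.out.ne_zero ZC where
  L := Lser p
  Mp := Mser p
  one_mem := one_mem_Mser p
  mul_mem := fun hx hy => mul_mem_Mser p hx hy
  lift_mem := fun hH => lift_mem_Mser p hH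
  tr_mem := fun hx => tr_mem_Lser p hx
  E₄ := qs (⇑E₄ : ℍ → ℂ)
  E₆ := qs (⇑E₆ : ℍ → ℂ)
  S₃ := S3
  S₅ := S5
  R := Rser
  E₄_mem := E4_mem_Lser p
  E₆_mem := E6_mem_Lser p
  S₅_int := S5_int
  R_int := Rser_int
  E₄_eq := qs_E4
  E₆_eq := qs_E6
  S₃_eq := S3_eq
  ev := evR
  ev_add := evR_add p
  ev_smul := evR_smul p
  ev_E₄_mul := evR_E4_mul p
  ev_int := evR_int p
  ev_E₆_pow := evR_E6_pow p

/-- **WP U4** (exact skeleton statement).
No `G ∈ M₂(Γ₀(p))`, `p ≡ 7 mod 8`, has integral `q`-expansion `≡ odd constant mod 8`. -/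
theorem U4 (p : ℕ) [Fact p.Prime] (hp8 : p % 8 = 7) {G : ℍ → ℂ} (hG : G ∈ MF (Gamma0 p) 2)
    (s : ℤ) (hs : Odd s) (h0 : qCoeff G 0 = (s : ℂ))
    (hcong : ∀ k : ℕ, 1 ≤ k → ∃ m : ℤ, qCoeff G k = 8 * (m : ℂ)) : False := by
  classical
  have hp0 : p ≠ 0 := (Fact.out : p.Prime).ne_zero
  have h8 : 8 ∣ p + 1 := by omega
  -- the integral series `H` with `qs G = s + 8 H`
  choose! m hm using hcong
  set Hs : PowerSeries ℂ := PowerSeries.mk fun n => if n = 0 then 0 else ((m n : ℤ) : ℂ) with hHs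
  have hHint : Hs ∈ H373.intSeries ZC := by
    rw [H373.mem_intSeries]
    intro n
    rw [hHs, PowerSeries.coeff_mk]
    split_ifs
    · exact ZC.zero_mem
    · exact intCast_mem_ZC _
  have hGs : qs G = (s : PowerSeries ℂ) + 8 * Hs := by
    ext n
    have e8 : (8 : PowerSeries ℂ) = PowerSeries.C (8 : ℂ) := by rw [map_ofNat]
    have es : (s : PowerSeries ℂ) = PowerSeries.C (s : ℂ) := by rw [map_intCast]
    rw [map_add, e8, es, PowerSeries.coeff_C_mul, PowerSeries.coeff_C, coeff_qs, hHs,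
      PowerSeries.coeff_mk]
    by_cases hn : n = 0
    · subst hn
      simp [h0]
    · rw [if_neg hn, if_neg hn, hm n (Nat.one_le_iff_ne_zero.2 hn)]
      ring
  -- the pair `(G, G^)`
  have hmem : ((qs G, -(p : PowerSeries ℂ) * H373.opU p (qs G)) : H373.Pair ℂ)
      ∈ (levelData p).Mp 2 := by
    refine ⟨G, hG, ?_⟩
    have hU : heckeU 2 p G ∈ MF (Gamma0 p) 2 := H377.FR.heckeU_two_mem p hG
    have e1 : hat p ((2 : ℕ) : ℤ) G = (-(p : ℂ)) • heckeU 2 p G := H377.FR.hat_two p hG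
    have ep : (p : PowerSeries ℂ) = PowerSeries.C (p : ℂ) := by rw [map_natCast]
    rw [e1, qs_smul p hU, qs_heckeU p hG, ep, ← map_neg, ← PowerSeries.smul_eq_C_mul]
  exact H373.u4_core (levelData p) h8 two_inv_not_mem_ZC s hs (qs G) Hs hHint hGs hmem

end Fermat.Agent.S16.H247
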