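import Fermat.Agent.S16.H247.U4Level
import Fermat.Agent.S16.H196.L1

/-!
# S16 / WP U4, instantiation (helper247), part 3: the series `E₄`, `E₆`, `S₃`, `S₅`, `R`

`qs E₄ = 1 + 240 S₃`, `qs E₆ = 1 - 504 S₅`, `S₃ = S₅ + 2 R`, with `S₅`, `R` integral.
-/

set_option autoImplicit false

noncomputable section

namespace Fermat.Agent.S16.H247

open UpperHalfPlane ModularForm CongruenceSubgroup MatrixGroups ModularFormClass
open EisensteinSeries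
open Fermat.Agent.S16
open Fermat.Agent.S20 (MF SF)
open scoped Manifold ArithmeticFunction.sigma

/-- The ring of integers inside `ℂ`. -/
def ZC : Subring ℂ := (Int.castRingHom ℂ).range

theorem mem_ZC {x : ℂ} : x ∈ ZC ↔ ∃ m : ℤ, (m : ℂ) = x := RingHom.mem_range

theorem intCast_mem_ZC (m : ℤ) : (m : ℂ) ∈ ZC := ⟨m, rfl⟩

theorem two_inv_not_mem_ZC : (2 : ℂ)⁻¹ ∉ ZC := by
  rintro ⟨m, hm⟩
  have hm' : (m : ℂ) = (2 : ℂ)⁻¹ := hm
  have h1 : (2 : ℂ) * (m : ℂ) = 1 := by rw [hm']; norm_num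
  have h2 : (2 : ℤ) * m = 1 := by exact_mod_cast h1
  omega

/-- `∑ σ₃(n) qⁿ`. -/
def S3 : PowerSeries ℂ := PowerSeries.mk fun n => ((σ 3 n : ℕ) : ℂ)

/-- `∑ σ₅(n) qⁿ`. -/
def S5 : PowerSeries ℂ := PowerSeries.mk fun n => ((σ 5 n : ℕ) : ℂ)

/-- `(σ₃(n) - σ₅(n)) / 2` as an integer. -/
def rInt (n : ℕ) : ℤ := ∑ d ∈ n.divisors, ((d : ℤ) ^ 3 - (d : ℤ) ^ 5) / 2

/-- `∑ (σ₃(n) - σ₅(n))/2 qⁿ`. -/
def Rser : PowerSeries ℂ := PowerSeries.mk fun n => ((rInt n : ℤ) : ℂ)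

theorem even_cube_sub (d : ℤ) : (2 : ℤ) ∣ d ^ 3 - d ^ 5 := by
  have h : d ^ 3 - d ^ 5 = -(d ^ 3 * (d - 1) * (d + 1)) := by ring
  rw [h, dvd_neg]
  rcases Int.even_or_odd d with ⟨a, ha⟩ | ⟨a, ha⟩
  · exact ⟨a ^ 3 * 4 * (d - 1) * (d + 1), by rw [ha]; ring⟩
  · exact ⟨d ^ 3 * a * (d + 1), by rw [ha]; ring⟩

theorem two_mul_rInt (n : ℕ) : 2 * rInt n = (σ 3 n : ℤ) - (σ 5 n : ℤ) := by
  unfold rInt
  rw [Finset.mul_sum, ArithmeticFunction.sigma_apply, ArithmeticFunction.sigma_apply]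
  push_cast
  rw [← Finset.sum_sub_distrib]
  refine Finset.sum_congr rfl fun d _ => ?_
  exact Int.mul_ediv_cancel' (even_cube_sub d)

theorem S5_int : S5 ∈ H373.intSeries ZC := by
  rw [H373.mem_intSeries]
  intro n
  exact ⟨(σ 5 n : ℤ), by simp [S5]⟩

theorem Rser_int : Rser ∈ H373.intSeries ZC := by
  rw [H373.mem_intSeries]
  intro n
  exact ⟨rInt n, by simp [Rser]⟩

theorem S3_eq : S3 = S5 + 2 * Rser := by
  ext n
  have h := two_mul_rInt n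
  have h' : (2 : ℂ) * (rInt n : ℂ) = (σ 3 n : ℂ) - (σ 5 n : ℂ) := by exact_mod_cast h
  have e2 : (2 : PowerSeries ℂ) = PowerSeries.C (2 : ℂ) := by
    rw [map_ofNat]
  rw [map_add, e2, PowerSeries.coeff_C_mul]
  simp only [S3, S5, Rser, PowerSeries.coeff_mk]
  rw [h']
  ring

theorem qs_E4 : qs (⇑E₄ : ℍ → ℂ) = 1 + 240 * S3 := by
  ext n
  have e240 : (240 : PowerSeries ℂ) = PowerSeries.C (240 : ℂ) := by
    rw [map_ofNat]
  rw [map_add, e240, PowerSeries.coeff_C_mul, PowerSeries.coeff_one]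
  simp only [S3, PowerSeries.coeff_mk]
  have := E_qExpansion_coeff (k := 4) (by norm_num) ⟨2, rfl⟩ n
  rw [show (qs (⇑E₄ : ℍ → ℂ)) = qExpansion 1 (E (k := 4) (by norm_num)) from rfl, this]
  have hb : bernoulli 4 = -1 / 30 := by decide +kernel
  split_ifs with h0
  · subst h0; simp
  · rw [hb]; push_cast; ring

theorem qs_E6 : qs (⇑E₆ : ℍ → ℂ) = 1 - 504 * S5 := by
  ext n
  have e504 : (504 : PowerSeries ℂ) = PowerSeries.C (504 : ℂ) := by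
    rw [map_ofNat]
  rw [map_sub, e504, PowerSeries.coeff_C_mul, PowerSeries.coeff_one]
  simp only [S5, PowerSeries.coeff_mk]
  have := E_qExpansion_coeff (k := 6) (by norm_num) ⟨3, rfl⟩ n
  rw [show (qs (⇑E₆ : ℍ → ℂ)) = qExpansion 1 (E (k := 6) (by norm_num)) from rfl, this]
  have hb : bernoulli 6 = 1 / 42 := by decide +kernel
  split_ifs with h0
  · subst h0; simp
  · rw [hb]; push_cast; ring

variable (p : ℕ) [hpp : Fact p.Prime]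

theorem E4_mem_Lser : qs (⇑E₄ : ℍ → ℂ) ∈ Lser p 4 :=
  ⟨⇑E₄, Fermat.Agent.S20.L1.coe_mem_MF_top E₄, rfl⟩

theorem E6_mem_Lser : qs (⇑E₆ : ℍ → ℂ) ∈ Lser p 6 :=
  ⟨⇑E₆, Fermat.Agent.S20.L1.coe_mem_MF_top E₆, rfl⟩

end Fermat.Agent.S16.H247
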