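import Fermat.Agent.S16.H247.U4Eis

/-!
# S16 / WP U4, instantiation (helper247), part 4: evaluation at `ρ`

`evR k A = H(ρ) / Δ(ρ)^(k/12)` if `12 ∣ k` and `A = qs H` with `H` of level one and weight `k`
(and `0` otherwise), with the five properties required by `H373.LevelData`.
-/

set_option autoImplicit false

noncomputable section

namespace Fermat.Agent.S16.H247

open UpperHalfPlane ModularForm CongruenceSubgroup MatrixGroups ModularFormClass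
open EisensteinSeries
open Fermat.Agent.S16
open Fermat.Agent.S20 (MF SF)
open Fermat.Agent.S20.L1 (rhoPt E₄_rhoPt)
open scoped Manifold

local notation "Δ" => ModularForm.discriminant

open Classical in
/-- evaluation at `ρ`, normalised by a power of `Δ(ρ)`. -/
def evR (k : ℕ) (A : PowerSeries ℂ) : ℂ :=
  if h : 12 ∣ k ∧ ∃ H ∈ MF (⊤ : Subgroup SL(2, ℤ)) (k : ℤ), qs H = A then
    (Classical.choose h.2) rhoPt / (Δ rhoPt) ^ (k / 12)
  else 0

theorem evR_of_not_dvd {k : ℕ} (hk : ¬ 12 ∣ k) (A : PowerSeries ℂ) : evR k A = 0 := by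
  unfold evR
  rw [dif_neg]
  exact fun h => hk h.1

variable (p : ℕ) [hpp : Fact p.Prime]

include hpp in
theorem evR_qs {k : ℕ} (hk : 12 ∣ k) {H : ℍ → ℂ} (hH : H ∈ MF (⊤ : Subgroup SL(2, ℤ)) (k : ℤ)) :
    evR k (qs H) = H rhoPt / (Δ rhoPt) ^ (k / 12) := by
  have h : 12 ∣ k ∧ ∃ H' ∈ MF (⊤ : Subgroup SL(2, ℤ)) (k : ℤ), qs H' = qs H :=
    ⟨hk, H, hH, rfl⟩
  unfold evR
  rw [dif_pos h]
  have hc := Classical.choose_spec h.2
  have : Classical.choose h.2 = H :=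
    eq_of_qs_eq p (MF_top_le _ _ hc.1) (MF_top_le _ _ hH) hc.2
  rw [this]

include hpp in
theorem evR_add (k : ℕ) (A B : PowerSeries ℂ) (hA : A ∈ Lser p k) (hB : B ∈ Lser p k) :
    evR k (A + B) = evR k A + evR k B := by
  by_cases hk : 12 ∣ k
  · obtain ⟨H, hH, rfl⟩ := hA
    obtain ⟨H', hH', rfl⟩ := hB
    rw [← qs_add p (MF_top_le _ _ hH) (MF_top_le _ _ hH'), evR_qs p hk hH, evR_qs p hk hH',
      evR_qs p hk (Submodule.add_mem _ hH hH'), Pi.add_apply, add_div]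
  · simp [evR_of_not_dvd hk]

include hpp in
theorem evR_smul (k : ℕ) (c : ℂ) (A : PowerSeries ℂ) (hA : A ∈ Lser p k) :
    evR k (c • A) = c * evR k A := by
  by_cases hk : 12 ∣ k
  · obtain ⟨H, hH, rfl⟩ := hA
    rw [← qs_smul p (MF_top_le _ _ hH), evR_qs p hk hH,
      evR_qs p hk (Submodule.smul_mem _ c hH), Pi.smul_apply, smul_eq_mul, mul_div_assoc]
  · simp [evR_of_not_dvd hk]

include hpp in
theorem evR_E4_mul (k : ℕ) (X : PowerSeries ℂ) (hX : X ∈ Lser p k) :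
    evR (k + 4) (qs (⇑E₄ : ℍ → ℂ) * X) = 0 := by
  by_cases hk : 12 ∣ k + 4
  · obtain ⟨H, hH, rfl⟩ := hX
    have hE : (⇑E₄ : ℍ → ℂ) ∈ MF (⊤ : Subgroup SL(2, ℤ)) 4 :=
      Fermat.Agent.S20.L1.coe_mem_MF_top E₄
    have hprod : (⇑E₄ : ℍ → ℂ) * H ∈ MF (⊤ : Subgroup SL(2, ℤ)) ((k + 4 : ℕ) : ℤ) := by
      have := Fermat.Agent.S20.H740.mul_mem_MF_self hE hH
      have e : ((k + 4 : ℕ) : ℤ) = 4 + (k : ℤ) := by push_cast; ring
      rw [e]; exact this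
    rw [← qs_mul p (MF_top_le _ _ hE) (MF_top_le _ _ hH), evR_qs p hk hprod, Pi.mul_apply,
      E₄_rhoPt, zero_mul, zero_div]
  · exact evR_of_not_dvd hk _

include hpp in
theorem evR_int (k : ℕ) (A : PowerSeries ℂ) (hA : A ∈ Lser p k) (hint : A ∈ H373.intSeries ZC) :
    evR k A ∈ ZC := by
  by_cases hk : 12 ∣ k
  · obtain ⟨j, rfl⟩ := hk
    obtain ⟨H, hH, rfl⟩ := hA
    have hH' : H ∈ MF (⊤ : Subgroup SL(2, ℤ)) (12 * (j : ℤ)) := by
      have e : ((12 * j : ℕ) : ℤ) = 12 * (j : ℤ) := by push_cast; ring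
      rw [← e]; exact hH
    have hIA : IntAll H := by
      intro n
      obtain ⟨m, hm⟩ := (H373.mem_intSeries.1 hint) n
      exact ⟨m, hm.symm⟩
    obtain ⟨m, hm⟩ := H196.evRho_int rhoPt E₄_rhoPt j hH' hIA
    rw [evR_qs p (Dvd.intro j rfl) hH, hm, Nat.mul_div_cancel_left j (by norm_num),
      mul_div_assoc, div_self (pow_ne_zero _ (discriminant_ne_zero rhoPt)), mul_one]
    exact intCast_mem_ZC m
  · rw [evR_of_not_dvd hk]
    exact ZC.zero_mem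

theorem E6_rhoPt_sq : (E₆ rhoPt) ^ 2 = -1728 * Δ rhoPt := by
  have h := discriminant_eq_E₄_cube_sub_E₆_sq rhoPt
  rw [E₄_rhoPt] at h
  rw [h]
  ring

include hpp in
theorem evR_E6_pow (j : ℕ) : evR (12 * j) (qs (⇑E₆ : ℍ → ℂ) ^ (2 * j)) = (-1728) ^ j := by
  have hE : (⇑E₆ : ℍ → ℂ) ∈ MF (⊤ : Subgroup SL(2, ℤ)) 6 :=
    Fermat.Agent.S20.L1.coe_mem_MF_top E₆
  have hpow : (⇑E₆ : ℍ → ℂ) ^ (2 * j) ∈ MF (⊤ : Subgroup SL(2, ℤ)) ((12 * j : ℕ) : ℤ) := by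
    have := Fermat.Agent.S20.H740.pow_mem_MF hE (2 * j)
    have e : ((12 * j : ℕ) : ℤ) = 6 * ((2 * j : ℕ) : ℤ) := by push_cast; ring
    rw [e]; exact this
  rw [← qs_pow p (MF_top_le _ _ hE), evR_qs p (Dvd.intro j rfl) hpow,
    Nat.mul_div_cancel_left j (by norm_num), Pi.pow_apply, pow_mul, E6_rhoPt_sq, mul_pow,
    mul_div_assoc, div_self (pow_ne_zero _ (discriminant_ne_zero rhoPt)), mul_one]

end Fermat.Agent.S16.H247
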