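import Fermat.Agent.S16.H247.U4QExp

/-!
# S16 / WP U4, instantiation (helper247), part 2: the spaces `L k`, `Mp k`

* `Lser p k`  : `q`-series of level one forms of weight `k`;
* `Mser p k`  : pairs `(qs F, qs F^)` for `F ∈ M_k(Γ₀(p))`;

and the four structural fields `one_mem`, `mul_mem`, `lift_mem`, `tr_mem` of `H373.LevelData`.
-/

set_option autoImplicit false

noncomputable section

namespace Fermat.Agent.S16.H247

open UpperHalfPlane ModularForm CongruenceSubgroup MatrixGroups ModularFormClass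
open Fermat.Agent.S16
open Fermat.Agent.S20 (MF SF)
open scoped Manifold

variable (p : ℕ) [hpp : Fact p.Prime]

/-- `q`-series of level one forms of weight `k`. -/
def Lser (k : ℕ) : Submodule ℂ (PowerSeries ℂ) where
  carrier := {A | ∃ H ∈ MF (⊤ : Subgroup SL(2, ℤ)) (k : ℤ), qs H = A}
  zero_mem' := ⟨0, Submodule.zero_mem _, qExpansion_zero 1⟩
  add_mem' := by
    rintro _ _ ⟨H, hH, rfl⟩ ⟨H', hH', rfl⟩
    exact ⟨H + H', Submodule.add_mem _ hH hH',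
      qs_add p (MF_top_le _ _ hH) (MF_top_le _ _ hH')⟩
  smul_mem' := by
    rintro c _ ⟨H, hH, rfl⟩
    exact ⟨c • H, Submodule.smul_mem _ c hH, qs_smul p (MF_top_le _ _ hH) c⟩

theorem mem_Lser {k : ℕ} {A : PowerSeries ℂ} :
    A ∈ Lser p k ↔ ∃ H ∈ MF (⊤ : Subgroup SL(2, ℤ)) (k : ℤ), qs H = A := Iff.rfl

/-- pairs `(qs F, qs F^)` for `F ∈ M_k(Γ₀(p))`. -/
def Mser (k : ℕ) : Submodule ℂ (H373.Pair ℂ) where
  carrier := {x | ∃ F ∈ MF (Gamma0 p) (k : ℤ), x = (qs F, qs (hat p k F))}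
  zero_mem' := by
    refine ⟨0, Submodule.zero_mem _, ?_⟩
    have h0 : hat p (k : ℤ) (0 : ℍ → ℂ) = 0 := by
      have := H377.FR.hat_smul p (k : ℤ) 0 (0 : ℍ → ℂ)
      simpa using this
    rw [h0]
    have : qs (0 : ℍ → ℂ) = 0 := qExpansion_zero 1
    rw [this]
    rfl
  add_mem' := by
    rintro _ _ ⟨F, hF, rfl⟩ ⟨F', hF', rfl⟩
    refine ⟨F + F', Submodule.add_mem _ hF hF', ?_⟩
    rw [H377.FR.hat_add, qs_add p hF hF',
      qs_add p (H377.FR.hat_mem_MF p hF) (H377.FR.hat_mem_MF p hF')]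
    rfl
  smul_mem' := by
    rintro c _ ⟨F, hF, rfl⟩
    refine ⟨c • F, Submodule.smul_mem _ c hF, ?_⟩
    rw [H377.FR.hat_smul, qs_smul p hF, qs_smul p (H377.FR.hat_mem_MF p hF)]
    rfl

theorem mem_Mser {k : ℕ} {x : H373.Pair ℂ} :
    x ∈ Mser p k ↔ ∃ F ∈ MF (Gamma0 p) (k : ℤ), x = (qs F, qs (hat p k F)) := Iff.rfl

theorem hat_zero_one : hat p 0 (1 : ℍ → ℂ) = 1 := by
  funext z
  rw [H377.FR.hat_apply]
  simp

theorem one_mem_Mser : (1 : H373.Pair ℂ) ∈ Mser p 0 := by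
  refine ⟨1, ?_, ?_⟩
  · simpa using (Fermat.Agent.S20.H740.one_mem_MF (Γ := Gamma0 p))
  · simp only [Nat.cast_zero, hat_zero_one, qs_one]
    rfl

theorem mul_mem_Mser {k k' : ℕ} {x y : H373.Pair ℂ} (hx : x ∈ Mser p k) (hy : y ∈ Mser p k') :
    x * y ∈ Mser p (k + k') := by
  obtain ⟨F, hF, rfl⟩ := hx
  obtain ⟨F', hF', rfl⟩ := hy
  refine ⟨F * F', ?_, ?_⟩
  · have := Fermat.Agent.S20.H740.mul_mem_MF_self hF hF'
    simpa using this
  · have e : ((k + k' : ℕ) : ℤ) = (k : ℤ) + (k' : ℤ) := by push_cast; rfl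
    rw [e, H377.FR.hat_mul, qs_mul p hF hF',
      qs_mul p (H377.FR.hat_mem_MF p hF) (H377.FR.hat_mem_MF p hF')]
    rfl

theorem lift_mem_Mser {k : ℕ} {A : PowerSeries ℂ} (hA : A ∈ Lser p k) :
    H373.lift p hpp.out.ne_zero k A ∈ Mser p k := by
  obtain ⟨H, hH, rfl⟩ := hA
  refine ⟨H, MF_top_le _ _ hH, ?_⟩
  rw [H377.FR.hat_levelOne p hH, qs_smul p (H377.FR.Vp_mem_MF p hH), qs_Vp p hH, zpow_natCast]
  rfl

theorem heckeU_hat_mem {k : ℤ} {F : ℍ → ℂ} (hF : F ∈ MF (Gamma0 p) k) :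
    heckeU k p (hat p k F) ∈ MF (Gamma0 p) k := by
  have hp0 : (p : ℂ) ≠ 0 := by exact_mod_cast hpp.out.ne_zero
  have h1 : tr p k F ∈ MF (Gamma0 p) k := MF_top_le _ _ (H377.FR.tr_mem_MF p hF)
  have h2 : tr p k F - F ∈ MF (Gamma0 p) k := Submodule.sub_mem _ h1 hF
  have h3 : tr p k F - F = ((p : ℂ) ^ (1 - k)) • heckeU k p (hat p k F) := by
    unfold tr
    abel
  rw [h3] at h2
  have h4 := Submodule.smul_mem (MF (Gamma0 p) k) (((p : ℂ) ^ (1 - k))⁻¹) h2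
  rwa [smul_smul, inv_mul_cancel₀ (zpow_ne_zero _ hp0), one_smul] at h4

theorem tr_mem_Lser {k : ℕ} {x : H373.Pair ℂ} (hx : x ∈ Mser p k) :
    H373.tr p k x ∈ Lser p k := by
  have hp0 : (p : ℂ) ≠ 0 := by exact_mod_cast hpp.out.ne_zero
  obtain ⟨F, hF, rfl⟩ := hx
  refine ⟨tr p k F, H377.FR.tr_mem_MF p hF, ?_⟩
  have hU := heckeU_hat_mem p hF
  rw [H373.tr_apply]
  unfold tr
  rw [qs_add p hF (Submodule.smul_mem _ _ hU), qs_smul p hU,
    qs_heckeU p (H377.FR.hat_mem_MF p hF)]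
  congr 2
  rw [zpow_sub₀ hp0, zpow_one, zpow_natCast, div_eq_mul_inv, inv_pow]

end Fermat.Agent.S16.H247
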