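import Fermat.Agent.S16.H127.Bridge1
import Fermat.Agent.S16.H377.SkelFR
import Fermat.Agent.S16.H373.Main
import Fermat.Agent.S20.H740.Gen
import Fermat.Prelude.Thm_ModularFormClass_qCoeff_heckeU

/-!
# S16 / WP U4, instantiation (helper247), part 1: `q`-series of function-level forms

`qs f = qExpansion 1 f` as a power series; additivity, multiplicativity, injectivity on
`MF (Gamma0 p) k`, and compatibility with `U_p` (`H373.opU`) and `V_p` (`PowerSeries.expand`).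
-/

set_option autoImplicit false

noncomputable section

namespace Fermat.Agent.S16.H247

open UpperHalfPlane ModularForm CongruenceSubgroup MatrixGroups ModularFormClass
open Fermat.Agent.S16
open Fermat.Agent.S20 (MF SF)
open scoped Manifold

/-- The `q`-expansion (period `1`) as a power series. -/
def qs (f : ℍ → ℂ) : PowerSeries ℂ := qExpansion 1 f

theorem coeff_qs (f : ℍ → ℂ) (n : ℕ) : PowerSeries.coeff n (qs f) = qCoeff f n := rfl

theorem MF_top_le (Γ : Subgroup SL(2, ℤ)) (k : ℤ) : MF ⊤ k ≤ MF Γ k :=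
  fun _ hf => ⟨hf.1, fun γ _ => hf.2.1 γ trivial, hf.2.2⟩

variable (p : ℕ) [hpp : Fact p.Prime]

include hpp in
theorem neZero_p : NeZero p := ⟨hpp.out.ne_zero⟩

theorem analytic_of_mem {k : ℤ} {f : ℍ → ℂ} (hf : f ∈ MF (Gamma0 p) k) :
    AnalyticAt ℂ (cuspFunction 1 f) 0 :=
  have := neZero_p p
  H127.analyticAt_cuspFunction_of_mem_MF p hf

theorem periodic_of_mem {k : ℤ} {f : ℍ → ℂ} (hf : f ∈ MF (Gamma0 p) k) :
    Function.Periodic (f ∘ UpperHalfPlane.ofComplex) 1 := by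
  have := neZero_p p
  obtain ⟨F, rfl⟩ := H127.exists_modularForm_of_mem_MF p hf
  have := SlashInvariantFormClass.periodic_comp_ofComplex F
    (CongruenceSubgroup.one_mem_strictPeriods_Gamma0 p)
  simpa using this

theorem bdd_of_mem {Γ : Subgroup SL(2, ℤ)} {k : ℤ} {f : ℍ → ℂ} (hf : f ∈ MF Γ k) :
    IsBoundedAtImInfty f := by
  have := hf.2.2 1
  rwa [SlashAction.slash_one] at this

theorem hasSum_qs {k : ℤ} {f : ℍ → ℂ} (hf : f ∈ MF (Gamma0 p) k) (τ : ℍ) :
    HasSum (fun m : ℕ => PowerSeries.coeff m (qs f) • Function.Periodic.qParam 1 τ ^ m) (f τ) :=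
  UpperHalfPlane.hasSum_qExpansion one_pos (periodic_of_mem p hf) hf.1 (bdd_of_mem hf) τ

theorem qs_add {k : ℤ} {f g : ℍ → ℂ} (hf : f ∈ MF (Gamma0 p) k) (hg : g ∈ MF (Gamma0 p) k) :
    qs (f + g) = qs f + qs g :=
  qExpansion_add (analytic_of_mem p hf) (analytic_of_mem p hg)

theorem qs_smul {k : ℤ} {f : ℍ → ℂ} (hf : f ∈ MF (Gamma0 p) k) (c : ℂ) :
    qs (c • f) = c • qs f :=
  qExpansion_smul (analytic_of_mem p hf) c

theorem qs_mul {k k' : ℤ} {f g : ℍ → ℂ} (hf : f ∈ MF (Gamma0 p) k)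
    (hg : g ∈ MF (Gamma0 p) k') : qs (f * g) = qs f * qs g :=
  qExpansion_mul (analytic_of_mem p hf) (analytic_of_mem p hg)

theorem qs_one : qs (1 : ℍ → ℂ) = 1 := qExpansion_one 1

theorem qs_pow {k : ℤ} {f : ℍ → ℂ} (hf : f ∈ MF (Gamma0 p) k) (n : ℕ) :
    qs (f ^ n) = qs f ^ n := by
  induction n with
  | zero => simpa using qs_one
  | succ n ih =>
    rw [pow_succ, pow_succ, qs_mul p (Fermat.Agent.S20.H740.pow_mem_MF hf n) hf, ih]

theorem eq_zero_of_qs_eq_zero {k : ℤ} {f : ℍ → ℂ} (hf : f ∈ MF (Gamma0 p) k)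
    (h : qs f = 0) : f = 0 :=
  (qExpansion_eq_zero_iff one_pos (periodic_of_mem p hf) hf.1 (bdd_of_mem hf)).1 h

theorem eq_of_qs_eq {k : ℤ} {f g : ℍ → ℂ} (hf : f ∈ MF (Gamma0 p) k)
    (hg : g ∈ MF (Gamma0 p) k) (h : qs f = qs g) : f = g := by
  have hsub : f - g ∈ MF (Gamma0 p) k := Submodule.sub_mem _ hf hg
  have h0 : qs (f - g) = 0 := by
    have : qs (f - g) = qs f - qs g :=
      qExpansion_sub (analytic_of_mem p hf) (analytic_of_mem p hg)
    rw [this, h, sub_self]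
  exact sub_eq_zero.1 (eq_zero_of_qs_eq_zero p hsub h0)

/-- `q`-series of `U_p f`. -/
theorem qs_heckeU {k : ℤ} {f : ℍ → ℂ} (hf : f ∈ MF (Gamma0 p) k) :
    qs (heckeU k p f) = H373.opU p (qs f) := by
  have := neZero_p p
  obtain ⟨F, rfl⟩ := H127.exists_modularForm_of_mem_MF p hf
  ext n
  rw [H373.coeff_opU, coeff_qs, coeff_qs,
    ModularFormClass.qCoeff_heckeU F (CongruenceSubgroup.one_mem_strictPeriods_Gamma0 p)
      hpp.out.ne_zero n, coeffHeckeU_apply, mul_comm]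

theorem qParam_heckeDiag (τ : ℍ) :
    Function.Periodic.qParam 1 ((heckeDiagMatrix p • τ : ℍ) : ℂ)
      = Function.Periodic.qParam 1 (τ : ℂ) ^ p := by
  rw [coe_heckeDiagMatrix_smul hpp.out.ne_zero]
  unfold Function.Periodic.qParam
  rw [← Complex.exp_nat_mul]
  congr 1
  push_cast
  ring

theorem hasSum_Vp {k : ℤ} {H : ℍ → ℂ} (hH : H ∈ MF ⊤ k) (τ : ℍ) :
    HasSum (fun m : ℕ => PowerSeries.coeff m (PowerSeries.expand p hpp.out.ne_zero (qs H))
      • Function.Periodic.qParam 1 (τ : ℂ) ^ m) (Vp p H τ) := by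
  have hH' : H ∈ MF (Gamma0 p) k := MF_top_le _ _ hH
  have h1 := hasSum_qs p hH' (heckeDiagMatrix p • τ)
  rw [qParam_heckeDiag] at h1
  have hinj : Function.Injective (fun n : ℕ => p * n) :=
    fun a b h => Nat.eq_of_mul_eq_mul_left hpp.out.pos h
  have h2 : HasSum ((fun m : ℕ => PowerSeries.coeff m (PowerSeries.expand p hpp.out.ne_zero (qs H))
      • Function.Periodic.qParam 1 (τ : ℂ) ^ m) ∘ fun n : ℕ => p * n) (Vp p H τ) := by
    have e : ((fun m : ℕ => PowerSeries.coeff m (PowerSeries.expand p hpp.out.ne_zero (qs H))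
      • Function.Periodic.qParam 1 (τ : ℂ) ^ m) ∘ fun n : ℕ => p * n)
        = fun n : ℕ => PowerSeries.coeff n (qs H) • (Function.Periodic.qParam 1 (τ : ℂ) ^ p) ^ n := by
      funext n
      simp only [Function.comp_apply, PowerSeries.coeff_expand_mul, pow_mul]
    rw [e]
    exact h1
  exact (hinj.hasSum_iff (fun m hm => by
    have : ¬ p ∣ m := fun ⟨n, hn⟩ => hm ⟨n, hn.symm⟩
    simp only [PowerSeries.coeff_expand_of_not_dvd p hpp.out.ne_zero _ this, zero_smul])).1 h2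

/-- `q`-series of `V_p H`, for `H` of level one. -/
theorem qs_Vp {k : ℤ} {H : ℍ → ℂ} (hH : H ∈ MF ⊤ k) :
    qs (Vp p H) = PowerSeries.expand p hpp.out.ne_zero (qs H) := by
  have hV : Vp p H ∈ MF (Gamma0 p) k := H377.FR.Vp_mem_MF p hH
  ext m
  let _ : FunLike (ℍ → ℂ) ℍ ℂ := ⟨fun g => g, fun _ _ h => h⟩
  exact (UpperHalfPlane.qExpansion_coeff_unique (F := ℍ → ℂ) (Vp p H) (h := 1) one_pos
    (analytic_of_mem p hV) (hasSum_Vp p hH) m).symm

end Fermat.Agent.S16.H247
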