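import Mathlib

/-!
# S16 / L-ind (hedge, helper247): the Weil-representation induction

Abstract setting: `D` a finite `𝔽_p`-vector space with a quadratic form `Q`, `ψ` an additive
character of `𝔽_p`, and a family `Θ : D → ℍ → ℂ` of functions with

* `(T)`  `Θ h ∣[2] T = ψ (Q h) • Θ h`,
* `(S)`  `Θ h ∣[2] S = -p⁻¹ • ∑ k, ψ (polar Q h k) • Θ k`,
* orthogonality `∑ k, ψ (polar Q k j) = if j = 0 then p² else 0`,
* Gauss sums `∑ h, ψ (u * Q h) = -p` for `u ≠ 0`.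

Then `Θ 0 ∣[2] γ = Θ 0` for all `γ ∈ Γ₀(p)`, and for `γ ∉ Γ₀(p)`,
`Θ 0 ∣[2] γ = -p⁻¹ • ∑ k, ψ (d/c * Q k) • Θ k` where `(c, d)` is the bottom row of `γ`.
-/

set_option autoImplicit false

open UpperHalfPlane ModularForm Matrix Matrix.SpecialLinearGroup CongruenceSubgroup
open scoped MatrixGroups ModularForm Manifold

namespace Fermat.Agent.S16.H247

variable {p : ℕ} [Fact p.Prime] {D : Type*} [AddCommGroup D] [Fintype D] [Module (ZMod p) D]

/-- The hypotheses on the family `Θ`, without the Gauss sums. -/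
structure IsPreWeilFamily (Q : QuadraticForm (ZMod p) D) (ψ : AddChar (ZMod p) ℂ)
    (Θ : D → ℍ → ℂ) : Prop where
  slash_T : ∀ h, Θ h ∣[(2 : ℤ)] ModularGroup.T = ψ (Q h) • Θ h
  slash_S : ∀ h, Θ h ∣[(2 : ℤ)] ModularGroup.S =
    (-(p : ℂ)⁻¹) • ∑ k, ψ (QuadraticMap.polar Q h k) • Θ k
  card : Fintype.card D = p ^ 2
  orth : ∀ j : D, j ≠ 0 → ∑ k, ψ (QuadraticMap.polar Q k j) = 0

/-- The hypotheses on the family `Θ`, including the Gauss sums `∑ h, ψ (u Q h) = -p`. -/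
structure IsWeilFamily (Q : QuadraticForm (ZMod p) D) (ψ : AddChar (ZMod p) ℂ)
    (Θ : D → ℍ → ℂ) : Prop extends IsPreWeilFamily Q ψ Θ where
  gauss : ∀ u : ZMod p, u ≠ 0 → ∑ h, ψ (u * Q h) = -(p : ℂ)

variable {Q : QuadraticForm (ZMod p) D} {ψ : AddChar (ZMod p) ℂ} {Θ : D → ℍ → ℂ}

/-- The vector `v_u = -p⁻¹ ∑_k ψ(u Q(k)) Θ_k`. -/
noncomputable def vvec (Q : QuadraticForm (ZMod p) D) (ψ : AddChar (ZMod p) ℂ)
    (Θ : D → ℍ → ℂ) (u : ZMod p) : ℍ → ℂ :=
  (-(p : ℂ)⁻¹) • ∑ k, ψ (u * Q k) • Θ k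

omit [AddCommGroup D] in
theorem slash_smul_sum (γ : SL(2, ℤ)) (c : ℂ) (a : D → ℂ) (Θ : D → ℍ → ℂ) :
    (c • ∑ k, a k • Θ k) ∣[(2 : ℤ)] γ = c • ∑ k, a k • (Θ k ∣[(2 : ℤ)] γ) := by
  rw [ModularForm.SL_smul_slash, SlashAction.sum_slash]
  congr 1
  refine Finset.sum_congr rfl fun k _ => ?_
  rw [ModularForm.SL_smul_slash]

namespace IsPreWeilFamily

variable (H : IsPreWeilFamily Q ψ Θ)
include H

theorem zero_slash_T : Θ 0 ∣[(2 : ℤ)] ModularGroup.T = Θ 0 := by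
  rw [H.slash_T]; simp

theorem zero_slash_S : Θ 0 ∣[(2 : ℤ)] ModularGroup.S = vvec Q ψ Θ 0 := by
  rw [H.slash_S]
  simp [vvec, QuadraticMap.polar]

theorem vvec_slash_T (u : ZMod p) :
    vvec Q ψ Θ u ∣[(2 : ℤ)] ModularGroup.T = vvec Q ψ Θ (u + 1) := by
  unfold vvec
  rw [slash_smul_sum]
  congr 1
  refine Finset.sum_congr rfl fun k _ => ?_
  rw [H.slash_T, smul_smul, ← AddChar.map_add_eq_mul]
  congr 2
  ring

theorem vvec_slash_S_aux (u : ZMod p) :
    vvec Q ψ Θ u ∣[(2 : ℤ)] ModularGroup.S =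
      ((p : ℂ)⁻¹) ^ 2 • ∑ j, (∑ k, ψ (u * Q k + QuadraticMap.polar Q k j)) • Θ j := by
  unfold vvec
  rw [slash_smul_sum]
  simp_rw [H.slash_S]
  ext τ
  simp only [Pi.smul_apply, Finset.sum_apply, smul_eq_mul, Finset.mul_sum, Finset.sum_mul]
  rw [Finset.sum_comm]
  refine Finset.sum_congr rfl fun j _ => ?_
  refine Finset.sum_congr rfl fun k _ => ?_
  rw [AddChar.map_add_eq_mul]
  ring

theorem vvec_zero_slash_S : vvec Q ψ Θ 0 ∣[(2 : ℤ)] ModularGroup.S = Θ 0 := by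
  classical
  have hp : (p : ℂ) ≠ 0 := by
    exact_mod_cast (Fact.out : p.Prime).ne_zero
  rw [H.vvec_slash_S_aux]
  have h1 : ∀ j : D, (∑ k, ψ (0 * Q k + QuadraticMap.polar Q k j)) • Θ j
      = if j = 0 then ((p : ℂ) ^ 2) • Θ 0 else 0 := by
    intro j
    by_cases hj : j = 0
    · subst hj
      have : ∀ k : D, QuadraticMap.polar Q k 0 = 0 := fun k => by simp [QuadraticMap.polar]
      simp only [zero_mul, zero_add, if_true, this, AddChar.map_zero_eq_one, Finset.sum_const,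
        Finset.card_univ, H.card]
      simp
    · simp only [zero_mul, zero_add, if_neg hj, H.orth j hj, zero_smul]
  simp_rw [h1]
  rw [Finset.sum_ite_eq' Finset.univ (0 : D)]
  simp only [Finset.mem_univ, if_true, smul_smul]
  have : ((p : ℂ)⁻¹) ^ 2 * (p : ℂ) ^ 2 = 1 := by
    field_simp
  rw [this, one_smul]

end IsPreWeilFamily

namespace IsWeilFamily

variable (H : IsWeilFamily Q ψ Θ)
include H

theorem vvec_slash_S {u : ZMod p} (hu : u ≠ 0) :
    vvec Q ψ Θ u ∣[(2 : ℤ)] ModularGroup.S = vvec Q ψ Θ (-u⁻¹) := by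
  have hp : (p : ℂ) ≠ 0 := by
    exact_mod_cast (Fact.out : p.Prime).ne_zero
  rw [H.toIsPreWeilFamily.vvec_slash_S_aux]
  unfold vvec
  have key : ∀ j : D, ∑ k, ψ (u * Q k + QuadraticMap.polar Q k j)
      = -(p : ℂ) * ψ (-u⁻¹ * Q j) := by
    intro j
    have e1 : ∀ k : D, u * Q k + QuadraticMap.polar Q k j
        = u * Q (k + u⁻¹ • j) + (-u⁻¹ * Q j) := by
      intro k
      have hq : Q (k + u⁻¹ • j) = Q k + Q (u⁻¹ • j) + QuadraticMap.polar Q k (u⁻¹ • j) := by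
        simp only [QuadraticMap.polar]; ring
      rw [hq, QuadraticMap.map_smul, QuadraticMap.polar_smul_right]
      simp only [smul_eq_mul]
      field_simp
      ring
    simp_rw [e1, AddChar.map_add_eq_mul]
    rw [← Finset.sum_mul]
    have e2 : ∑ k, ψ (u * Q (k + u⁻¹ • j)) = ∑ k, ψ (u * Q k) :=
      Fintype.sum_equiv (Equiv.addRight (u⁻¹ • j)) _ _ (fun k => rfl)
    rw [e2, H.gauss u hu]
  simp_rw [key]
  ext τ
  simp only [Pi.smul_apply, Finset.sum_apply, smul_eq_mul, Finset.mul_sum]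
  refine Finset.sum_congr rfl fun j _ => ?_
  field_simp

end IsWeilFamily

/-! ### bottom rows -/

theorem mul_T_one_zero (γ : SL(2, ℤ)) : (γ * ModularGroup.T) 1 0 = γ 1 0 := by
  have h := congrFun (congrFun (Matrix.SpecialLinearGroup.coe_mul γ ModularGroup.T) 1) 0
  rw [ModularGroup.coe_T] at h
  rw [h]
  simp [Matrix.mul_apply, Fin.sum_univ_two]

theorem mul_T_one_one (γ : SL(2, ℤ)) : (γ * ModularGroup.T) 1 1 = γ 1 0 + γ 1 1 := by
  have h := congrFun (congrFun (Matrix.SpecialLinearGroup.coe_mul γ ModularGroup.T) 1) 1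
  rw [ModularGroup.coe_T] at h
  rw [h]
  simp [Matrix.mul_apply, Fin.sum_univ_two]

theorem mul_S_one_zero (γ : SL(2, ℤ)) : (γ * ModularGroup.S) 1 0 = γ 1 1 := by
  have h := congrFun (congrFun (Matrix.SpecialLinearGroup.coe_mul γ ModularGroup.S) 1) 0
  rw [ModularGroup.coe_S] at h
  rw [h]
  simp [Matrix.mul_apply, Fin.sum_univ_two]

theorem mul_S_one_one (γ : SL(2, ℤ)) : (γ * ModularGroup.S) 1 1 = -γ 1 0 := by
  have h := congrFun (congrFun (Matrix.SpecialLinearGroup.coe_mul γ ModularGroup.S) 1) 1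
  rw [ModularGroup.coe_S] at h
  rw [h]
  simp [Matrix.mul_apply, Fin.sum_univ_two]

/-- if `c ≡ 0 mod p` then `d ≢ 0 mod p`. -/
theorem one_one_ne_zero_of_one_zero_eq_zero (γ : SL(2, ℤ))
    (h : ((γ 1 0 : ℤ) : ZMod p) = 0) : ((γ 1 1 : ℤ) : ZMod p) ≠ 0 := by
  intro h'
  have hdet : γ 0 0 * γ 1 1 - γ 0 1 * γ 1 0 = 1 := by
    have := γ.det_coe
    rwa [Matrix.det_fin_two] at this
  have := congrArg (Int.cast : ℤ → ZMod p) hdet
  simp only [Int.cast_sub, Int.cast_mul, h, h', mul_zero, sub_zero, Int.cast_one] at this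
  exact zero_ne_one this

/-- The predicted value of `Θ 0 ∣[2] γ`. -/
noncomputable def target (Q : QuadraticForm (ZMod p) D) (ψ : AddChar (ZMod p) ℂ)
    (Θ : D → ℍ → ℂ) (γ : SL(2, ℤ)) : ℍ → ℂ :=
  if ((γ 1 0 : ℤ) : ZMod p) = 0 then Θ 0
  else vvec Q ψ Θ (((γ 1 1 : ℤ) : ZMod p) / ((γ 1 0 : ℤ) : ZMod p))

namespace IsWeilFamily

variable (H : IsWeilFamily Q ψ Θ)
include H

theorem target_mul_T (γ : SL(2, ℤ)) :
    target Q ψ Θ (γ * ModularGroup.T) = target Q ψ Θ γ ∣[(2 : ℤ)] ModularGroup.T := by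
  unfold target
  rw [mul_T_one_zero, mul_T_one_one]
  by_cases hc : ((γ 1 0 : ℤ) : ZMod p) = 0
  · rw [if_pos hc, if_pos hc, H.zero_slash_T]
  · rw [if_neg hc, if_neg hc, H.vvec_slash_T]
    congr 1
    push_cast
    field_simp
    ring

theorem target_mul_S (γ : SL(2, ℤ)) :
    target Q ψ Θ (γ * ModularGroup.S) = target Q ψ Θ γ ∣[(2 : ℤ)] ModularGroup.S := by
  unfold target
  rw [mul_S_one_zero, mul_S_one_one]
  by_cases hc : ((γ 1 0 : ℤ) : ZMod p) = 0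
  · have hd := one_one_ne_zero_of_one_zero_eq_zero (p := p) γ hc
    rw [if_neg hd, if_pos hc, H.zero_slash_S]
    congr 1
    push_cast
    rw [hc]
    simp
  · by_cases hd : ((γ 1 1 : ℤ) : ZMod p) = 0
    · rw [if_pos hd, if_neg hc, hd, zero_div, H.vvec_zero_slash_S]
    · rw [if_neg hd, if_neg hc, H.vvec_slash_S (div_ne_zero hd hc)]
      congr 1
      push_cast
      field_simp

/-- **L-ind**: the value of `Θ 0 ∣[2] γ` for every `γ ∈ SL(2, ℤ)`. -/
theorem zero_slash_eq_target (γ : SL(2, ℤ)) : Θ 0 ∣[(2 : ℤ)] γ = target Q ψ Θ γ := by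
  have hmem : γ ∈ Subgroup.closure ({ModularGroup.S, ModularGroup.T} : Set SL(2, ℤ)) := by
    rw [_root_.SpecialLinearGroup.SL2Z_generators]; trivial
  induction hmem using Subgroup.closure_induction_right with
  | one =>
    rw [SlashAction.slash_one]
    unfold target
    rw [if_pos (by simp)]
  | mul_right x hx y hy ih =>
    rcases hy with rfl | rfl
    · rw [SlashAction.slash_mul, ih, H.target_mul_S]
    · rw [SlashAction.slash_mul, ih, H.target_mul_T]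
  | mul_inv_cancel x hx y hy ih =>
    rcases hy with rfl | rfl
    · have h1 := H.target_mul_S (x * ModularGroup.S⁻¹)
      rw [inv_mul_cancel_right] at h1
      rw [SlashAction.slash_mul, ih, h1, ← SlashAction.slash_mul, mul_inv_cancel,
        SlashAction.slash_one]
    · have h1 := H.target_mul_T (x * ModularGroup.T⁻¹)
      rw [inv_mul_cancel_right] at h1
      rw [SlashAction.slash_mul, ih, h1, ← SlashAction.slash_mul, mul_inv_cancel,
        SlashAction.slash_one]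

/-- **L-ind**, invariance: `Θ 0` is invariant under `Γ₀(p)`. -/
theorem zero_slash_of_mem_Gamma0 (γ : SL(2, ℤ)) (hγ : γ ∈ Gamma0 p) :
    Θ 0 ∣[(2 : ℤ)] γ = Θ 0 := by
  rw [H.zero_slash_eq_target γ]
  unfold target
  rw [Gamma0_mem] at hγ
  rw [if_pos hγ]

/-- every `SL(2, ℤ)`-translate of `Θ 0` is bounded at `i∞` if all the `Θ k` are. -/
theorem isBoundedAtImInfty_zero_slash (hbdd : ∀ k, IsBoundedAtImInfty (Θ k)) (γ : SL(2, ℤ)) :
    IsBoundedAtImInfty (Θ 0 ∣[(2 : ℤ)] γ) := by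
  rw [H.zero_slash_eq_target γ]
  unfold target
  split_ifs
  · exact hbdd 0
  · unfold vvec
    have hmem : ∀ f : ℍ → ℂ, IsBoundedAtImInfty f ↔ f ∈ boundedAtImInftySubalgebra ℂ :=
      fun f => Iff.rfl
    rw [hmem]
    refine Subalgebra.smul_mem _ (Subalgebra.sum_mem _ fun k _ => ?_) _
    exact Subalgebra.smul_mem _ ((hmem _).1 (hbdd k)) _

/-- **L-ind**, function-level package (this is definitionally membership of `Θ 0` in
`Fermat.Agent.S20.MF (Gamma0 p) 2`). -/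
theorem mdiff_and_slash_and_bdd (hol : MDiff (Θ 0)) (hbdd : ∀ k, IsBoundedAtImInfty (Θ k)) :
    MDiff (Θ 0) ∧ (∀ γ ∈ Gamma0 p, Θ 0 ∣[(2 : ℤ)] γ = Θ 0) ∧
      ∀ γ : SL(2, ℤ), IsBoundedAtImInfty (Θ 0 ∣[(2 : ℤ)] γ) :=
  ⟨hol, H.zero_slash_of_mem_Gamma0, H.isBoundedAtImInfty_zero_slash hbdd⟩

/-- **L-ind**, packaged: `Θ 0` is a modular form of weight `2` on `Γ₀(p)`. -/
theorem exists_modularForm (hol : MDiff (Θ 0)) (hbdd : ∀ k, IsBoundedAtImInfty (Θ k)) :
    ∃ G : ModularForm ((Gamma0 p).map (mapGL ℝ)) 2, ⇑G = Θ 0 := by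
  refine ⟨{ toFun := Θ 0
            slash_action_eq' := ?_
            holo' := hol
            bdd_at_cusps' := ?_ }, rfl⟩
  · rintro _ ⟨γ, hγ, rfl⟩
    exact H.zero_slash_of_mem_Gamma0 γ hγ
  · intro c hc
    rw [Subgroup.IsArithmetic.isCusp_iff_isCusp_SL2Z] at hc
    rw [OnePoint.isBoundedAt_iff_forall_SL2Z hc]
    intro γ _
    exact H.isBoundedAtImInfty_zero_slash hbdd γ

end IsWeilFamily

end Fermat.Agent.S16.H247
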